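/-
Cluster GAL, block 04 (KL modular inputs), owner helper30.

The function field `F_K = laurentBaseChange K (modularFunctionFieldFull M)` of `X₀(M)` over a field
`K` of characteristic zero satisfies the two standing hypotheses `hj`, `hF` of the files
`Fermat/Agent/S18/Vert/*`:  `K(j) ⊆ F_K ⊆ K(j, u)`.
-/
import Fermat.Agent.S18.Vert.Core

set_option autoImplicit false
set_option linter.unusedSectionVars false

noncomputable section

namespace Fermat.Agent.GAL.KLInputs

open ModularCurve Fermat.Agent.S28 Fermat.Agent.S18.Vert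

section General

variable {K : Type*} [Field K] [Algebra ℚ K]

theorem coeffEmb_algebraMap (c : ℚ) :
    coeffEmb K (algebraMap ℚ (LaurentSeries ℚ) c) =
      algebraMap K (LaurentSeries K) (algebraMap ℚ K c) := by
  rw [coeffEmb, algebraMap_laurentSeries_eq_single, algebraMap_laurentSeries_eq_single,
    coeffMap_single]

/-- `coeffEmb` maps `ℚ(S)` into `K(coeffEmb S)`. -/
theorem coeffEmb_mem_adjoin (S : Set (LaurentSeries ℚ)) {z : LaurentSeries ℚ}
    (hz : z ∈ IntermediateField.adjoin ℚ S) :
    coeffEmb K z ∈ IntermediateField.adjoin K (coeffEmb K '' S) := by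
  replace hz : z ∈ Subfield.closure (Set.range (algebraMap ℚ (LaurentSeries ℚ)) ∪ S) := hz
  induction hz using Subfield.closure_induction with
  | mem x hx =>
    rcases hx with ⟨c, rfl⟩ | hx
    · rw [coeffEmb_algebraMap]
      exact IntermediateField.algebraMap_mem _ _
    · exact IntermediateField.subset_adjoin K _ ⟨x, hx, rfl⟩
  | one => rw [map_one]; exact one_mem _
  | add x y _ _ hx hy => rw [map_add]; exact add_mem hx hy
  | neg x _ hx => rw [map_neg]; exact neg_mem hx
  | inv x _ hx => rw [map_inv₀]; exact inv_mem hx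
  | mul x y _ _ hx hy => rw [map_mul]; exact mul_mem hx hy

theorem coeffEmb_jq : coeffEmb K jq = jqModC K := by
  rw [← jqModC_rat, coeffEmb, coeffMap_jqModC]

variable (K) in
/-- `j ∈ F_K`. -/
theorem jqModC_mem (M : ℕ) [NeZero M] :
    jqModC K ∈ laurentBaseChange K (modularFunctionFieldFull M) := by
  rw [← coeffEmb_jq]
  refine coeffEmb_mem_laurentBaseChange K ?_
  have h := jqd_mem_full M (one_dvd M)
  rwa [qExpand_one_apply] at h

/-- monotonicity of `laurentBaseChange` in the level. -/
theorem laurentBaseChange_mono {F₀ F₁ : IntermediateField ℚ (LaurentSeries ℚ)} (h : F₀ ≤ F₁) :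
    laurentBaseChange K F₀ ≤ laurentBaseChange K F₁ :=
  IntermediateField.adjoin.mono K _ _ (Set.image_mono h)

end General

section Big

variable {K : Type*} [Field K] [CharZero K] [Algebra ℚ K] (A : ValuationSubring K)
  [IsDiscreteValuationRing A] {M ℓ : ℕ} [NeZero M] [Fact ℓ.Prime] (D : UData M ℓ)
  (hℓ : A.LiesOverPrime ℓ)

theorem inc_uS : inc A (uS D (zlTo A hℓ)) = coeffEmb K D.u := by
  rw [← D.toQ_uZ, inc, uS, coeffEmb, toQ, coeffMap_coeffMap, coeffMap_coeffMap]
  refine coeffMap_congr (RingHom.ext fun x => ?_) _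
  show (((x : ℚ) : K)) = algebraMap ℚ K (x : ℚ)
  exact (eq_ratCast (algebraMap ℚ K) _).symm

/-- `F_M ⊆ ℚ(j, u)`. -/
theorem full_le_adjoin : modularFunctionFieldFull M ≤ IntermediateField.adjoin ℚ {jq, D.u} := by
  rw [modularFunctionFieldFull, IntermediateField.adjoin_le_iff]
  rintro x ⟨d, hne, hd, rfl⟩
  exact D.gen d hd

/-- `F_K ⊆ K(j, u)`. -/
theorem le_bigField : laurentBaseChange K (modularFunctionFieldFull M) ≤ bigField A D hℓ := by
  rw [laurentBaseChange, IntermediateField.adjoin_le_iff]
  rintro _ ⟨z, hz, rfl⟩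
  have h1 := coeffEmb_mem_adjoin (K := K) {jq, D.u} (full_le_adjoin D hz)
  have h2 : coeffEmb K '' {jq, D.u} = {jqModC K, inc A (uS D (zlTo A hℓ))} := by
    rw [Set.image_pair, coeffEmb_jq, inc_uS]
  rw [h2] at h1
  exact h1

end Big

end Fermat.Agent.GAL.KLInputs

end
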