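/-
Cluster GAL, block 04 (KL modular inputs), owner helper30.

The three base coordinates `x = j` (`ℓ ≥ 5`), `x = h₂` (`ℓ = 3`, `2 ∣ M`), `x = h₃` (`ℓ = 2`,
`3 ∣ M`) as elements of the Gauss valuation ring `Vert.gaussVal A F hq`: their reduction is
transcendental over the residue field and `j ∈ K(x)`.  These are exactly the hypotheses
`x`, `hx`, `hjx` of `Fermat/Agent/S18/Vert/{GaussLemma,AnyBase}.lean`.
-/
import Fermat.Agent.GAL.KLInputs.Field
import Fermat.Agent.S18.Vert.GaussRes
import Fermat.Agent.Lib.Hauptmodul.Identities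
import Fermat.Agent.Lib.Hauptmodul.Member2
import Fermat.Agent.Lib.Hauptmodul.Member3

set_option autoImplicit false
set_option linter.unusedSectionVars false

noncomputable section

namespace Fermat.Agent.GAL.KLInputs

open ModularCurve Polynomial IntermediateField Fermat.Agent.S28 Fermat.Agent.S18.Vert
  Fermat.Agent.Lib.Hauptmodul

/-! ### Series over an arbitrary field -/

section Series

variable (k : Type*) [Field k]

theorem transcendental_jqModC : Transcendental k (jqModC k) := by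
  rw [transcendental_iff_injective]
  have h : ⇑(aeval (jqModC k) : k[X] →ₐ[k] LaurentSeries k) = ⇑(evalJ k) := by
    funext P
    rw [aeval_def, evalJ, coe_eval₂RingHom]
    congr 1
    refine RingHom.ext fun c => ?_
    rw [algebraMap_laurentSeries_eq_single]
    rfl
  rw [h]
  exact evalJ_injective k

theorem transcendental_toL_X_mul (u : PowerSeries ℤ) (hu : PowerSeries.constantCoeff u = 1) :
    Transcendental k (toL k (PowerSeries.X * u)) := by
  apply transcendental_of_coeff
  · intro m hm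
    rcases lt_or_ge m 0 with h0 | h0
    · exact toL_coeff_of_neg _ _ h0
    · have hk0 : m = ((0 : ℕ) : ℤ) := by push_cast; omega
      rw [hk0, toL_coeff_natCast, PowerSeries.coeff_zero_X_mul, Int.cast_zero]
  · have h := toL_coeff_natCast k (PowerSeries.X * u) 1
    rw [Nat.cast_one] at h
    rw [h, show (1 : ℕ) = 0 + 1 from rfl, PowerSeries.coeff_succ_X_mul,
      PowerSeries.coeff_zero_eq_constantCoeff_apply, hu, Int.cast_one]

end Series

section Char0

variable (K : Type*) [Field K] [Algebra ℚ K]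

theorem coeffEmb_toL (P : PowerSeries ℤ) : coeffEmb K (toL ℚ P) = toL K P := coeffMap_toL _ _

theorem jqModC_mul_h2 : jqModC K * toL K h2Z = (1 + 256 * toL K h2Z) ^ 3 := by
  have h := congrArg (coeffEmb K) jq_mul_h2q
  rw [map_mul, map_pow, map_add, map_one, map_mul, map_ofNat, h2q, coeffEmb_jq, coeffEmb_toL] at h
  exact h

theorem jqModC_mul_h3 :
    jqModC K * toL K h3Z = (1 + 27 * toL K h3Z) * (1 + 243 * toL K h3Z) ^ 3 := by
  have h := congrArg (coeffEmb K) jq_mul_h3q
  rw [map_mul, map_mul, map_pow, map_add, map_add, map_one, map_mul, map_mul, map_ofNat, map_ofNat,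
    h3q, coeffEmb_jq, coeffEmb_toL] at h
  exact h

theorem toL_h2Z_mem (M : ℕ) [NeZero M] (hM : 2 ∣ M) :
    toL K h2Z ∈ laurentBaseChange K (modularFunctionFieldFull M) := by
  rw [← coeffEmb_toL]
  exact coeffEmb_mem_laurentBaseChange K (full_degeneracy_le hM h2q_mem)

theorem toL_h3Z_mem (M : ℕ) [NeZero M] (hM : 3 ∣ M) :
    toL K h3Z ∈ laurentBaseChange K (modularFunctionFieldFull M) := by
  rw [← coeffEmb_toL]
  exact coeffEmb_mem_laurentBaseChange K (full_degeneracy_le hM h3q_mem)

theorem toL_X_mul_ne_zero (u : PowerSeries ℤ) (hu : PowerSeries.constantCoeff u = 1) :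
    toL K (PowerSeries.X * u) ≠ 0 := by
  intro h
  have := transcendental_toL_X_mul K u hu
  rw [h] at this
  exact this isAlgebraic_zero

end Char0

/-! ### The bases as elements of the Gauss ring -/

section Gauss

variable {K : Type*} [Field K] {A : ValuationSubring K} [IsDiscreteValuationRing A]
variable {F : IntermediateField K (LaurentSeries K)} (hq : IsQuot A F)

/-- the base `x = j`. -/
def baseJ (hj : jqModC K ∈ F) : gaussVal A F hq :=
  gaussMk hq (jqModC A) (by rw [inc, coeffMap_jqModC]; exact hj)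

theorem coe_baseJ (hj : jqModC K ∈ F) : (baseJ hq hj : F) = ⟨jqModC K, hj⟩ :=
  Subtype.ext (coeffMap_jqModC _)

theorem gaussRes_baseJ (hj : jqModC K ∈ F) :
    gaussRes hq (baseJ hq hj) = jqModC (IsLocalRing.ResidueField A) := by
  rw [baseJ, gaussRes_gaussMk, red, coeffMap_jqModC]

theorem transcendental_baseJ (hj : jqModC K ∈ F) :
    Transcendental (IsLocalRing.ResidueField A) (gaussRes hq (baseJ hq hj)) := by
  rw [gaussRes_baseJ]
  exact transcendental_jqModC _

theorem j_mem_adjoin_baseJ (hj : jqModC K ∈ F) :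
    (⟨jqModC K, hj⟩ : F) ∈ K⟮(baseJ hq hj : F)⟯ := by
  rw [coe_baseJ]
  exact mem_adjoin_simple_self K _

/-- the base `x = P(q)`, `P ∈ ℤ[[q]]`. -/
def baseZ (P : PowerSeries ℤ) (hP : toL K P ∈ F) : gaussVal A F hq :=
  gaussMk hq (toL A P) (by rw [inc, coeffMap_toL]; exact hP)

theorem coe_baseZ (P : PowerSeries ℤ) (hP : toL K P ∈ F) :
    (baseZ hq P hP : F) = ⟨toL K P, hP⟩ :=
  Subtype.ext (coeffMap_toL _ _)

theorem gaussRes_baseZ (P : PowerSeries ℤ) (hP : toL K P ∈ F) :
    gaussRes hq (baseZ hq P hP) = toL (IsLocalRing.ResidueField A) P := by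
  rw [baseZ, gaussRes_gaussMk, red, coeffMap_toL]

theorem transcendental_baseZ (u : PowerSeries ℤ) (hu : PowerSeries.constantCoeff u = 1)
    (hP : toL K (PowerSeries.X * u) ∈ F) :
    Transcendental (IsLocalRing.ResidueField A) (gaussRes hq (baseZ hq (PowerSeries.X * u) hP)) := by
  rw [gaussRes_baseZ]
  exact transcendental_toL_X_mul _ u hu

variable [Algebra ℚ K]

theorem j_mem_adjoin_base2 (hj : jqModC K ∈ F) (hP : toL K h2Z ∈ F) :
    (⟨jqModC K, hj⟩ : F) ∈ K⟮(baseZ hq h2Z hP : F)⟯ := by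
  rw [coe_baseZ]
  set x : F := ⟨toL K h2Z, hP⟩ with hx
  have hx0 : x ≠ 0 := fun h =>
    toL_X_mul_ne_zero K u2Z constantCoeff_u2Z (congrArg Subtype.val h)
  have h1 : (⟨jqModC K, hj⟩ : F) = (1 + 256 * x) ^ 3 / x := by
    rw [eq_div_iff hx0]
    apply F.val.injective
    rw [map_mul, map_pow, map_add, map_one, map_mul, map_ofNat]
    exact jqModC_mul_h2 K
  rw [h1]
  have hxm : x ∈ K⟮x⟯ := mem_adjoin_simple_self K x
  exact div_mem (pow_mem (add_mem (one_mem _) (mul_mem (ofNat_mem _ 256) hxm)) 3)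
    hxm

theorem j_mem_adjoin_base3 (hj : jqModC K ∈ F) (hP : toL K h3Z ∈ F) :
    (⟨jqModC K, hj⟩ : F) ∈ K⟮(baseZ hq h3Z hP : F)⟯ := by
  rw [coe_baseZ]
  set x : F := ⟨toL K h3Z, hP⟩ with hx
  have hx0 : x ≠ 0 := fun h =>
    toL_X_mul_ne_zero K u3Z constantCoeff_u3Z (congrArg Subtype.val h)
  have h1 : (⟨jqModC K, hj⟩ : F) = (1 + 27 * x) * (1 + 243 * x) ^ 3 / x := by
    rw [eq_div_iff hx0]
    apply F.val.injective
    rw [map_mul, map_mul, map_pow, map_add, map_add, map_one, map_mul, map_mul, map_ofNat,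
      map_ofNat]
    exact jqModC_mul_h3 K
  rw [h1]
  have hxm : x ∈ K⟮x⟯ := mem_adjoin_simple_self K x
  exact div_mem (mul_mem (add_mem (one_mem _) (mul_mem (ofNat_mem _ 27) hxm))
    (pow_mem (add_mem (one_mem _) (mul_mem (ofNat_mem _ 243) hxm)) 3)) hxm

end Gauss

end Fermat.Agent.GAL.KLInputs

end
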