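/-
Cluster GAL, block 04 (KL modular inputs), owner helper30.

Horizontal inputs for the bases `x = h₂`, `x = h₃` (and `x = j`) over a number field `K₀ ⊆ ℚ̄`:
`Descent.UnramOutsideVS` for `x` and `x⁻¹`, with branch polynomials coming from `ℤ[X]`.
-/
import Fermat.Agent.S18.Descent.JLine
import Fermat.Agent.Lib.Hauptmodul.Bar
import Fermat.Agent.GAL.KLInputs.Base

set_option autoImplicit false
set_option linter.unusedSectionVars false

noncomputable section

namespace Fermat.Agent.GAL.KLInputs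

open ModularCurve AlgebraicCurve Polynomial Fermat.Agent.S18.Descent Fermat.Agent.S24
  Fermat.Agent.S24.FF Fermat.Agent.Lib.Hauptmodul

local notation "Qbar" => AlgebraicClosure ℚ

/-- the branch polynomial `X (a X + 1)`. -/
def gA (a : ℤ) : ℤ[X] := X * (C a * X + 1)

/-- the branch polynomial `X (X + a)`. -/
def gB (a : ℤ) : ℤ[X] := X * (X + C a)

theorem map_gA {R : Type*} [CommRing R] (a : ℤ) :
    (gA a).map (Int.castRingHom R) = X * (C (a : R) * X + 1) := by
  simp [gA]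

theorem map_gB {R : Type*} [CommRing R] (a : ℤ) :
    (gB a).map (Int.castRingHom R) = X * (X + C (a : R)) := by
  simp [gB]

section Abstract

variable {K F : Type*} [Field K] [Field F] [Algebra K F]

/-- `ord (y⁻¹ - c) = ord (y - c⁻¹)` at a zero of `y⁻¹ - c`, `c ≠ 0`. -/
theorem ord_inv_sub_eq (v : Place K F) (y : F) (c : K) (hc : c ≠ 0)
    (hv : 0 < v.ord (y⁻¹ - algebraMap K F c)) :
    v.ord (y⁻¹ - algebraMap K F c) = v.ord (y - algebraMap K F c⁻¹) := by
  set cF := algebraMap K F c with hcF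
  have hcF0 : cF ≠ 0 := by simpa [hcF] using hc
  have hordc : v.ord cF = 0 := ord_algebraMap v c
  have hy0 : y ≠ 0 := by
    intro h0
    rw [h0, inv_zero, zero_sub, ord_neg, hordc] at hv
    exact lt_irrefl _ hv
  have hyinv : v.ord y⁻¹ = 0 := by
    have h1 : y⁻¹ = cF + (y⁻¹ - cF) := by ring
    rw [h1, ord_add_eq_of_lt v hcF0 (by rw [hordc]; exact hv), hordc]
  have hkey : y⁻¹ - cF = -cF * (y - algebraMap K F c⁻¹) * y⁻¹ := by
    rw [map_inv₀, ← hcF]
    field_simp
    ring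
  have hne : y - algebraMap K F c⁻¹ ≠ 0 := by
    intro h0
    rw [hkey, h0] at hv
    simp at hv
  rw [hkey, v.ord_mul (mul_ne_zero (neg_ne_zero.mpr hcF0) hne) (inv_ne_zero hy0),
    v.ord_mul (neg_ne_zero.mpr hcF0) hne, ord_neg, hordc, hyinv]
  ring

end Abstract

section Transfer

variable {F₀ : IntermediateField ℚ (LaurentSeries ℚ)} {K₀ : IntermediateField ℚ Qbar}
  [IsFF1 Qbar (laurentBaseChange Qbar F₀)] [IsFF1 K₀ (laurentBaseChange K₀ F₀)]

theorem unramOutsideVS_gA (x : laurentBaseChange K₀ F₀) (hx : Transcendental K₀ x) (a : ℤ)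
    (H : ∀ c : Qbar, c ≠ 0 → (a : Qbar) * c + 1 ≠ 0 →
      ∀ v : Place Qbar (laurentBaseChange Qbar F₀),
        0 < v.ord (toBar F₀ K₀ x - algebraMap Qbar (laurentBaseChange Qbar F₀) c) →
        v.ord (toBar F₀ K₀ x - algebraMap Qbar (laurentBaseChange Qbar F₀) c) = 1) :
    UnramOutsideVS K₀ x ((gA a).map (Int.castRingHom K₀)) := by
  rw [map_gA]
  have hg : (X * (C (a : K₀) * X + 1) : K₀[X]) ≠ 0 := by
    refine mul_ne_zero X_ne_zero ?_
    intro h
    have := congrArg (eval 0) h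
    simp at this
  refine unramOutsideVS_of_bar x hx _ hg ?_
  intro c hc v hv
  simp only [Polynomial.map_mul, Polynomial.map_add, map_X, eval_mul, eval_X, eval_add,
    ne_eq, mul_eq_zero, not_or, Polynomial.map_one, eval_one, map_intCast, Polynomial.map_intCast,
    eval_intCast] at hc
  exact H c hc.1 hc.2 v hv

theorem unramOutsideVS_gB (x : laurentBaseChange K₀ F₀) (hx : Transcendental K₀ x) (a : ℤ)
    (H : ∀ c : Qbar, c ≠ 0 → (a : Qbar) * c + 1 ≠ 0 →
      ∀ v : Place Qbar (laurentBaseChange Qbar F₀),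
        0 < v.ord (toBar F₀ K₀ x - algebraMap Qbar (laurentBaseChange Qbar F₀) c) →
        v.ord (toBar F₀ K₀ x - algebraMap Qbar (laurentBaseChange Qbar F₀) c) = 1) :
    UnramOutsideVS K₀ x⁻¹ ((gB a).map (Int.castRingHom K₀)) := by
  rw [map_gB]
  have hg : (X * (X + C (a : K₀)) : K₀[X]) ≠ 0 :=
    mul_ne_zero X_ne_zero (X_add_C_ne_zero _)
  refine unramOutsideVS_of_bar x⁻¹ (transcendental_inv hx) _ hg ?_
  intro c hc v hv
  simp only [Polynomial.map_mul, Polynomial.map_add, map_X, eval_mul, eval_X, eval_add,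
    ne_eq, mul_eq_zero, not_or, map_intCast, Polynomial.map_intCast, eval_intCast] at hc
  rw [map_inv₀] at hv ⊢
  have h1 := ord_inv_sub_eq v _ c hc.1 hv
  rw [h1] at hv ⊢
  refine H c⁻¹ (inv_ne_zero hc.1) ?_ v hv
  intro h
  apply hc.2
  have hc0 := hc.1
  field_simp at h
  linear_combination h

end Transfer

section Concrete

variable (M : ℕ) [NeZero M] (K₀ : IntermediateField ℚ Qbar)

/-- transcendence descends along `F ⊆ K((q))`. -/
theorem transcendental_of_coe {K : Type*} [Field K] {F : IntermediateField K (LaurentSeries K)}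
    (x : F) (hx : Transcendental K (x : LaurentSeries K)) : Transcendental K x :=
  fun h => hx (IsAlgebraic.algHom F.val h)

/-- `h₂` over `K₀`. -/
def h2K (hM : 2 ∣ M) : laurentBaseChange K₀ (modularFunctionFieldFull M) :=
  ⟨toL K₀ h2Z, toL_h2Z_mem K₀ M hM⟩

/-- `h₃` over `K₀`. -/
def h3K (hM : 3 ∣ M) : laurentBaseChange K₀ (modularFunctionFieldFull M) :=
  ⟨toL K₀ h3Z, toL_h3Z_mem K₀ M hM⟩

theorem toBar_h2K (hM : 2 ∣ M) :
    toBar (modularFunctionFieldFull M) K₀ (h2K M K₀ hM) = h2F M hM := by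
  apply Subtype.ext
  rw [coe_h2F]
  exact coeffMap_toL _ _

theorem toBar_h3K (hM : 3 ∣ M) :
    toBar (modularFunctionFieldFull M) K₀ (h3K M K₀ hM) = h3F M hM := by
  apply Subtype.ext
  rw [coe_h3F]
  exact coeffMap_toL _ _

theorem transcendental_h2K (hM : 2 ∣ M) : Transcendental K₀ (h2K M K₀ hM) :=
  transcendental_of_coe _ (transcendental_toL_X_mul K₀ u2Z constantCoeff_u2Z)

theorem transcendental_h3K (hM : 3 ∣ M) : Transcendental K₀ (h3K M K₀ hM) :=
  transcendental_of_coe _ (transcendental_toL_X_mul K₀ u3Z constantCoeff_u3Z)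

theorem unram_h2K (hM : 2 ∣ M) :
    UnramOutsideVS K₀ (h2K M K₀ hM) ((gA 64).map (Int.castRingHom K₀)) := by
  refine unramOutsideVS_gA _ (transcendental_h2K M K₀ hM) 64 ?_
  intro c h0 h1 v hv
  rw [toBar_h2K] at hv ⊢
  exact ord_h2F_sub_eq_one M hM c h0 (by exact_mod_cast h1) v hv

theorem unram_h2K_inv (hM : 2 ∣ M) :
    UnramOutsideVS K₀ (h2K M K₀ hM)⁻¹ ((gB 64).map (Int.castRingHom K₀)) := by
  refine unramOutsideVS_gB _ (transcendental_h2K M K₀ hM) 64 ?_
  intro c h0 h1 v hv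
  rw [toBar_h2K] at hv ⊢
  exact ord_h2F_sub_eq_one M hM c h0 (by exact_mod_cast h1) v hv

theorem unram_h3K (hM : 3 ∣ M) :
    UnramOutsideVS K₀ (h3K M K₀ hM) ((gA 27).map (Int.castRingHom K₀)) := by
  refine unramOutsideVS_gA _ (transcendental_h3K M K₀ hM) 27 ?_
  intro c h0 h1 v hv
  rw [toBar_h3K] at hv ⊢
  exact ord_h3F_sub_eq_one M hM c h0 (by exact_mod_cast h1) v hv

theorem unram_h3K_inv (hM : 3 ∣ M) :
    UnramOutsideVS K₀ (h3K M K₀ hM)⁻¹ ((gB 27).map (Int.castRingHom K₀)) := by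
  refine unramOutsideVS_gB _ (transcendental_h3K M K₀ hM) 27 ?_
  intro c h0 h1 v hv
  rw [toBar_h3K] at hv ⊢
  exact ord_h3F_sub_eq_one M hM c h0 (by exact_mod_cast h1) v hv

theorem unram_jK :
    UnramOutsideVS K₀ (jK M K₀) ((gB (-1728)).map (Int.castRingHom K₀)) := by
  have h : (gB (-1728)).map (Int.castRingHom K₀) = X * (X - C 1728) := by
    rw [map_gB, sub_eq_add_neg, ← C_neg]
    norm_num
  rw [h]
  exact unramOutsideVS_jK M K₀

theorem unram_jK_inv :
    UnramOutsideVS K₀ (jK M K₀)⁻¹ ((gA (-1728)).map (Int.castRingHom K₀)) := by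
  have h : (gA (-1728)).map (Int.castRingHom K₀) = X * (1 - C 1728 * X) := by
    rw [map_gA]
    congr 1
    have : (C ((-1728 : ℤ) : (K₀ : Type)) : (K₀ : Type)[X]) = - C 1728 := by
      rw [← C_neg]
      norm_num
    rw [this]
    ring
  rw [h]
  exact unramOutsideVS_jK_inv M K₀

end Concrete

end Fermat.Agent.GAL.KLInputs

end
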