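/-
Cluster GAL, block 04 (KL modular inputs), owner helper30.

Top of the proof of the key lemma: `GAL.KLStatement` from
* `KL₀` over number fields at the levels `M` prime to `ℓ` which carry a good base coordinate
  (`2 ∣ M` if `ℓ = 3`, `3 ∣ M` if `ℓ = 2`);
* the change of level `r N → N`.
-/
import Fermat.Agent.S18.Descent.Main
import Fermat.Agent.S24.Export.Ramification

set_option autoImplicit false

noncomputable section

namespace Fermat.Agent.GAL.KLInputs

open ModularCurve AlgebraicCurve Fermat.Agent.S18.Descent Fermat.Agent.S24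

local notation "Qbar" => AlgebraicClosure ℚ

/-- The number field input: `KL₀` at all levels with a good base coordinate. -/
def KL₀Input : Prop :=
  ∀ (M ℓ : ℕ) [NeZero M] [Fact ℓ.Prime], ¬ ℓ ∣ M → (ℓ = 3 → 2 ∣ M) → (ℓ = 2 → 3 ∣ M) →
    ∀ A : ValuationSubring Qbar, A.LiesOverPrime ℓ → ∀ n : ℕ, ¬ ℓ ∣ n →
      ∀ K₀ : IntermediateField ℚ Qbar, FiniteDimensional ℚ K₀ →
        KL₀ (modularFunctionFieldFull M) A K₀ n

/-- The level input (verbatim `S18.kl_level`). -/
def LevelInput : Prop :=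
  ∀ {N r : ℕ} [NeZero N], r.Prime → ¬ r ∣ N → ∀ (A : ValuationSubring Qbar) (n : ℕ),
    Nat.Coprime n (r + 1) → GAL.KL (r * N) A n → GAL.KL N A n

/-- `KL` at the good levels. -/
theorem kl_of_KL₀Input (h₀ : KL₀Input) (M ℓ : ℕ) [NeZero M] [Fact ℓ.Prime] (hM : ¬ ℓ ∣ M)
    (h3 : ℓ = 3 → 2 ∣ M) (h2 : ℓ = 2 → 3 ∣ M) (A : ValuationSubring Qbar)
    (hA : A.LiesOverPrime ℓ) (n : ℕ) (hn : ¬ ℓ ∣ n) : GAL.KL M A n := by
  have : FF.IsFF1 Qbar (modularFunctionFieldBar M) := Export.isFF1 M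
  have hn0 : n ≠ 0 := fun h => hn (h ▸ dvd_zero ℓ)
  exact KL_of_KL₀ M A n hn0 ⊥ fun K₀ hK₀ _ => h₀ M ℓ hM h3 h2 A hA n hn K₀ hK₀

/-- **The key lemma**, from the two inputs. -/
theorem klStatement_of_inputs (h₀ : KL₀Input) (hL : LevelInput) : GAL.KLStatement := by
  intro N _ ℓ _ hℓN A hA n hn
  have hℓ : ℓ.Prime := Fact.out
  by_cases h3 : ℓ = 3
  · subst h3
    by_cases h2N : 2 ∣ N
    · exact kl_of_KL₀Input h₀ N 3 hℓN (fun _ => h2N) (by norm_num) A hA n hn
    · have : NeZero (2 * N) := ⟨Nat.mul_ne_zero two_ne_zero (NeZero.ne N)⟩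
      refine hL Nat.prime_two h2N A n ?_ ?_
      · exact (Nat.Coprime.symm ((Nat.Prime.coprime_iff_not_dvd Nat.prime_three).mpr hn))
      · refine kl_of_KL₀Input h₀ (2 * N) 3 ?_ (fun _ => dvd_mul_right 2 N) (by norm_num) A hA n hn
        intro h
        rcases (Nat.Prime.dvd_mul Nat.prime_three).mp h with h | h
        · norm_num at h
        · exact hℓN h
  by_cases h2 : ℓ = 2
  · subst h2
    by_cases h3N : 3 ∣ N
    · exact kl_of_KL₀Input h₀ N 2 hℓN (by norm_num) (fun _ => h3N) A hA n hn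
    · have : NeZero (3 * N) := ⟨Nat.mul_ne_zero three_ne_zero (NeZero.ne N)⟩
      refine hL Nat.prime_three h3N A n ?_ ?_
      · have h1 : Nat.Coprime n 2 :=
          (Nat.Coprime.symm ((Nat.Prime.coprime_iff_not_dvd Nat.prime_two).mpr hn))
        have : (3 + 1 : ℕ) = 2 ^ 2 := by norm_num
        rw [this]
        exact Nat.Coprime.pow_right 2 h1
      · refine kl_of_KL₀Input h₀ (3 * N) 2 ?_ (by norm_num) (fun _ => dvd_mul_right 3 N) A hA n hn
        intro h
        rcases (Nat.Prime.dvd_mul Nat.prime_two).mp h with h | h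
        · norm_num at h
        · exact hℓN h
  · exact kl_of_KL₀Input h₀ N ℓ hℓN (fun h => absurd h h3) (fun h => absurd h h2) A hA n hn

end Fermat.Agent.GAL.KLInputs

end
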