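/-
Cluster GAL, block 04 (KL modular inputs), owner helper30.

**The key lemma** `GAL.KLStatement`: final assembly.

* abstract core: `GoodRed.inj_main` (injectivity of reduction on `Pic[n]`, `ℓ ∤ n`);
* vertical input: `Vert.gaussData` (the Gauss valuation of `F_K ⊆ K((q))`);
* horizontal input: `UnramOutsideVS` for the bases `j`, `h₂`, `h₃`;
* descent `ℚ̄ → K₀`: `Descent.KL_of_KL₀`;
* change of level: `GAL.KLStatement_of_special`.
-/
import Fermat.Agent.GAL.KLInputs.Wire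
import Fermat.Agent.GAL.KLInputs.HLine
import Fermat.Agent.GAL.KLInputs.Top
import Fermat.Agent.GAL.KLLevel
import Fermat.Agent.Lib.GoodRed.Main
import Fermat.Agent.S28.Export.Card

set_option autoImplicit false
set_option linter.unusedSectionVars false
set_option linter.style.haveILetI false

noncomputable section

namespace Fermat.Agent.GAL.KLInputs

open ModularCurve AlgebraicCurve Polynomial IntermediateField Fermat.Agent.GoodRed
  Fermat.Agent.S18.Descent Fermat.Agent.S18.Vert Fermat.Agent.S24.FF Fermat.Agent.S28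
  Fermat.Agent.Lib.Hauptmodul

local notation "Qbar" => AlgebraicClosure ℚ

/-- `GoodRed.inj_main`, packaged. -/
theorem injMain (O K E F : Type*) [CommRing O] [IsDomain O] [IsDiscreteValuationRing O]
    [Field K] [CharZero K] [Algebra O K] [IsFractionRing O K]
    [Field E] [Algebra K E] [Algebra O E] [IsScalarTower O K E]
    [Field F] [Algebra E F] [FiniteDimensional E F] : InjMain O K E F :=
  fun ϖ hϖ x hx hgen 𝒟 hG g₀ g₁ hg₀ hg₁ hU₀ hU₁ m hm h hh hM h1 =>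
    inj_main K ϖ hϖ x hx hgen 𝒟 hG g₀ g₁ hg₀ hg₁ hU₀ hU₁ m hm h hh hM h1

section Squarefree

variable {K : Type*} [Field K] (A : ValuationSubring K) {ℓ : ℕ}

theorem squarefree_gA (hp : ℓ.Prime) (hℓ : A.LiesOverPrime ℓ) (a : ℤ) (ha : ¬ (ℓ : ℤ) ∣ a) :
    Squarefree ((gA a).map (Int.castRingHom (IsLocalRing.ResidueField A))) := by
  rw [map_gA, ← C_1]
  exact squarefree_X_mul_linear _ _ (intCast_residueField_ne_zero A hp hℓ a ha) one_ne_zero

theorem squarefree_gB (hp : ℓ.Prime) (hℓ : A.LiesOverPrime ℓ) (a : ℤ) (ha : ¬ (ℓ : ℤ) ∣ a) :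
    Squarefree ((gB a).map (Int.castRingHom (IsLocalRing.ResidueField A))) := by
  rw [map_gB]
  have h := squarefree_X_mul_linear (1 : IsLocalRing.ResidueField A) _ one_ne_zero
    (intCast_residueField_ne_zero A hp hℓ a ha)
  rwa [C_1, one_mul] at h

end Squarefree

section Wire

variable {K : Type*} [Field K] [CharZero K] (A₀ : ValuationSubring K)
  [IsDiscreteValuationRing A₀] {N ℓ : ℕ} [Fact ℓ.Prime] (D : UData N ℓ)
  (hℓ : A₀.LiesOverPrime ℓ) (F : IntermediateField K (LaurentSeries K))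

set_option synthInstance.maxHeartbeats 400000 in
set_option maxHeartbeats 1000000 in
/-- `klGen_of_gauss` with `GoodRed.inj_main` plugged in. -/
theorem klGen_of_gauss' [IsFF1 K F] (hj : jqModC K ∈ F) (hF : F ≤ bigField A₀ D hℓ)
    (hq : IsQuot A₀ F) (x : gaussVal A₀ F hq)
    (hx : Transcendental (IsLocalRing.ResidueField A₀) (gaussRes hq x))
    (hxK : Transcendental K (x : F))
    (hjx : (⟨jqModC K, hj⟩ : F) ∈ K⟮(x : F)⟯)
    (g₀ g₁ : ℤ[X])
    (hg₀ : Squarefree (g₀.map (Int.castRingHom (IsLocalRing.ResidueField A₀))))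
    (hg₁ : Squarefree (g₁.map (Int.castRingHom (IsLocalRing.ResidueField A₀))))
    (hU₀ : UnramOutsideVS K (x : F) (g₀.map (Int.castRingHom K)))
    (hU₁ : UnramOutsideVS K (x : F)⁻¹ (g₁.map (Int.castRingHom K)))
    (n : ℕ) (hn : ¬ ℓ ∣ n) : KLGen A₀ F n :=
  klGen_of_gauss A₀ D hℓ F hj hF hq x hx hxK hjx (injMain _ _ _ _) g₀ g₁ hg₀ hg₁ hU₀ hU₁ n hn

end Wire

section Generic

variable {K : Type*} [Field K] [CharZero K] [Algebra ℚ K] (A₀ : ValuationSubring K)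
  [IsDiscreteValuationRing A₀] {M ℓ : ℕ} [NeZero M] [Fact ℓ.Prime] (D : UData M ℓ)
  (hℓ : A₀.LiesOverPrime ℓ)

local notation "FK" => laurentBaseChange K (modularFunctionFieldFull M)

include D hℓ

/-- base `j`, `ℓ ≥ 5`. -/
theorem klGen_j [IsFF1 K FK] (h2 : ℓ ≠ 2) (h3 : ℓ ≠ 3)
    (hU₀ : UnramOutsideVS K (⟨jqModC K, jqModC_mem K M⟩ : FK)
      ((gB (-1728)).map (Int.castRingHom K)))
    (hU₁ : UnramOutsideVS K (⟨jqModC K, jqModC_mem K M⟩ : FK)⁻¹
      ((gA (-1728)).map (Int.castRingHom K)))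
    (n : ℕ) (hn : ¬ ℓ ∣ n) : KLGen A₀ FK n := by
  have hp : ℓ.Prime := Fact.out
  have hj := jqModC_mem K M
  have hF := le_bigField A₀ D hℓ
  have hq := isQuot hj hF
  have h1728 : ¬ (ℓ : ℤ) ∣ (-1728) := by
    rw [Int.dvd_neg]
    intro h
    have h' : ℓ ∣ 2 ^ 6 * 3 ^ 3 := by exact_mod_cast h
    rcases (Nat.Prime.dvd_mul hp).1 h' with h' | h'
    · exact h2 ((Nat.prime_dvd_prime_iff_eq hp Nat.prime_two).1 (hp.dvd_of_dvd_pow h'))
    · exact h3 ((Nat.prime_dvd_prime_iff_eq hp Nat.prime_three).1 (hp.dvd_of_dvd_pow h'))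
  refine klGen_of_gauss' A₀ D hℓ _ hj hF hq (baseJ hq hj) (transcendental_baseJ hq hj) ?_
    (j_mem_adjoin_baseJ hq hj) (gB (-1728)) (gA (-1728))
    (squarefree_gB A₀ hp hℓ _ h1728) (squarefree_gA A₀ hp hℓ _ h1728) ?_ ?_ n hn
  · rw [coe_baseJ]
    exact transcendental_of_coe _ (transcendental_jqModC K)
  · rw [coe_baseJ]; exact hU₀
  · rw [coe_baseJ]; exact hU₁

/-- base `h₂`, `ℓ ≠ 2`. -/
theorem klGen_h2 [IsFF1 K FK] (h2 : ℓ ≠ 2) (hM : 2 ∣ M)
    (hU₀ : UnramOutsideVS K (⟨toL K h2Z, toL_h2Z_mem K M hM⟩ : FK)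
      ((gA 64).map (Int.castRingHom K)))
    (hU₁ : UnramOutsideVS K (⟨toL K h2Z, toL_h2Z_mem K M hM⟩ : FK)⁻¹
      ((gB 64).map (Int.castRingHom K)))
    (n : ℕ) (hn : ¬ ℓ ∣ n) : KLGen A₀ FK n := by
  have hp : ℓ.Prime := Fact.out
  have hj := jqModC_mem K M
  have hF := le_bigField A₀ D hℓ
  have hq := isQuot hj hF
  have hP := toL_h2Z_mem K M hM
  have h64 : ¬ (ℓ : ℤ) ∣ 64 := by
    intro h
    have h' : ℓ ∣ 2 ^ 6 := by exact_mod_cast h
    exact h2 ((Nat.prime_dvd_prime_iff_eq hp Nat.prime_two).1 (hp.dvd_of_dvd_pow h'))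
  refine klGen_of_gauss' A₀ D hℓ _ hj hF hq (baseZ hq h2Z hP)
    (transcendental_baseZ hq u2Z constantCoeff_u2Z hP) ?_
    (j_mem_adjoin_base2 hq hj hP) (gA 64) (gB 64)
    (squarefree_gA A₀ hp hℓ _ h64) (squarefree_gB A₀ hp hℓ _ h64) ?_ ?_ n hn
  · rw [coe_baseZ]
    exact transcendental_of_coe _ (transcendental_toL_X_mul K u2Z constantCoeff_u2Z)
  · rw [coe_baseZ]; exact hU₀
  · rw [coe_baseZ]; exact hU₁

/-- base `h₃`, `ℓ ≠ 3`. -/
theorem klGen_h3 [IsFF1 K FK] (h3 : ℓ ≠ 3) (hM : 3 ∣ M)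
    (hU₀ : UnramOutsideVS K (⟨toL K h3Z, toL_h3Z_mem K M hM⟩ : FK)
      ((gA 27).map (Int.castRingHom K)))
    (hU₁ : UnramOutsideVS K (⟨toL K h3Z, toL_h3Z_mem K M hM⟩ : FK)⁻¹
      ((gB 27).map (Int.castRingHom K)))
    (n : ℕ) (hn : ¬ ℓ ∣ n) : KLGen A₀ FK n := by
  have hp : ℓ.Prime := Fact.out
  have hj := jqModC_mem K M
  have hF := le_bigField A₀ D hℓ
  have hq := isQuot hj hF
  have hP := toL_h3Z_mem K M hM
  have h27 : ¬ (ℓ : ℤ) ∣ 27 := by
    intro h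
    have h' : ℓ ∣ 3 ^ 3 := by exact_mod_cast h
    exact h3 ((Nat.prime_dvd_prime_iff_eq hp Nat.prime_three).1 (hp.dvd_of_dvd_pow h'))
  refine klGen_of_gauss' A₀ D hℓ _ hj hF hq (baseZ hq h3Z hP)
    (transcendental_baseZ hq u3Z constantCoeff_u3Z hP) ?_
    (j_mem_adjoin_base3 hq hj hP) (gA 27) (gB 27)
    (squarefree_gA A₀ hp hℓ _ h27) (squarefree_gB A₀ hp hℓ _ h27) ?_ ?_ n hn
  · rw [coe_baseZ]
    exact transcendental_of_coe _ (transcendental_toL_X_mul K u3Z constantCoeff_u3Z)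
  · rw [coe_baseZ]; exact hU₀
  · rw [coe_baseZ]; exact hU₁

end Generic

/-- `KL₀` over number fields, at the levels with a good base coordinate. -/
theorem kl₀Input : KL₀Input := by
  intro M ℓ _ _ hM h3 h2 A hA n hn K₀ hK₀
  have hp : ℓ.Prime := Fact.out
  obtain ⟨D, -⟩ := Export.exists_UData_card M ℓ hM
  haveI : IsDiscreteValuationRing (restrict A K₀) := isDiscreteValuationRing_restrict K₀ hp.ne_zero hA
  have hℓ : (restrict A K₀).LiesOverPrime ℓ := restrict_liesOverPrime K₀ hA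
  apply KL₀_of_klGen
  by_cases e3 : ℓ = 3
  · exact klGen_h2 (restrict A K₀) D hℓ (by rw [e3]; decide) (h3 e3) (unram_h2K M K₀ (h3 e3))
      (unram_h2K_inv M K₀ (h3 e3)) n hn
  by_cases e2 : ℓ = 2
  · exact klGen_h3 (restrict A K₀) D hℓ e3 (h2 e2) (unram_h3K M K₀ (h2 e2))
      (unram_h3K_inv M K₀ (h2 e2)) n hn
  · exact klGen_j (restrict A K₀) D hℓ e2 e3 (unram_jK M K₀) (unram_jK_inv M K₀) n hn

end Fermat.Agent.GAL.KLInputs

namespace Fermat.Agent.GAL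

/-- **The key lemma.** -/
theorem klStatement : KLStatement :=
  KLStatement_of_special fun N _ ℓ _ hN h3 h2 A hA n hn =>
    KLInputs.kl_of_KL₀Input KLInputs.kl₀Input N ℓ hN h3 h2 A hA n hn

end Fermat.Agent.GAL

end
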