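/-
Cluster GAL, block 04 (KL modular inputs), owner helper30.

Arithmetic side conditions: integers prime to `ℓ` are units of a valuation subring over `ℓ`;
the branch polynomials `X (a X + 1)`, `X (X + a)` are squarefree modulo `ℓ` if `ℓ ∤ a`.
-/
import Mathlib
import Fermat.Prelude.Def_FLTPrelim_Ramification

set_option autoImplicit false

noncomputable section

namespace Fermat.Agent.GAL.KLInputs

open Polynomial

section Units

variable {K : Type*} [Field K] (A : ValuationSubring K) {ℓ : ℕ}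

theorem natCast_mem_maximalIdeal (hℓ : A.LiesOverPrime ℓ) :
    ((ℓ : ℕ) : A) ∈ IsLocalRing.maximalIdeal A := by
  have h := hℓ
  rw [ValuationSubring.LiesOverPrime, ValuationSubring.mem_nonunits_iff_exists_mem_maximalIdeal]
    at h
  obtain ⟨h1, h2⟩ := h
  have : (⟨(ℓ : K), h1⟩ : A) = ((ℓ : ℕ) : A) := Subtype.ext (by simp)
  rwa [this] at h2

theorem isUnit_intCast (hp : ℓ.Prime) (hℓ : A.LiesOverPrime ℓ) (a : ℤ) (ha : ¬ (ℓ : ℤ) ∣ a) :
    IsUnit (a : A) := by
  have hcop : IsCoprime a (ℓ : ℤ) :=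
    ((Nat.prime_iff_prime_int.mp hp).coprime_iff_not_dvd.mpr ha).symm
  obtain ⟨u, v, huv⟩ := hcop
  by_contra hcon
  have h1 : (a : A) ∈ IsLocalRing.maximalIdeal A := (IsLocalRing.mem_maximalIdeal _).mpr hcon
  have h2 : (1 : A) ∈ IsLocalRing.maximalIdeal A := by
    have h3 : (1 : A) = (u : A) * (a : A) + (v : A) * ((ℓ : ℕ) : A) := by
      have := congrArg (fun z : ℤ => (z : A)) huv
      simp only [Int.cast_add, Int.cast_mul, Int.cast_natCast, Int.cast_one] at this
      exact this.symm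
    rw [h3]
    exact Ideal.add_mem _ (Ideal.mul_mem_left _ _ h1)
      (Ideal.mul_mem_left _ _ (natCast_mem_maximalIdeal A hℓ))
  exact (Ideal.ne_top_iff_one _).mp (IsLocalRing.maximalIdeal.isMaximal A).ne_top h2

theorem isUnit_natCast (hp : ℓ.Prime) (hℓ : A.LiesOverPrime ℓ) (n : ℕ) (hn : ¬ ℓ ∣ n) :
    IsUnit (n : A) := by
  have := isUnit_intCast A hp hℓ (n : ℤ) (by exact_mod_cast hn)
  simpa using this

theorem intCast_residueField_ne_zero (hp : ℓ.Prime) (hℓ : A.LiesOverPrime ℓ) (a : ℤ)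
    (ha : ¬ (ℓ : ℤ) ∣ a) : (a : IsLocalRing.ResidueField A) ≠ 0 := by
  have h := (isUnit_intCast A hp hℓ a ha).map (IsLocalRing.residue A)
  rw [map_intCast] at h
  exact h.ne_zero

end Units

section Squarefree

variable {k : Type*} [Field k]

theorem squarefree_X_mul_linear (a b : k) (ha : a ≠ 0) (hb : b ≠ 0) :
    Squarefree (X * (C a * X + C b) : k[X]) := by
  apply Separable.squarefree
  refine Separable.mul separable_X ?_ ?_
  · rw [separable_def']
    refine ⟨0, C a⁻¹, ?_⟩
    simp only [zero_mul, zero_add, derivative_add, derivative_mul, derivative_C, derivative_X,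
      mul_one, add_zero]
    rw [← C_mul, inv_mul_cancel₀ ha, C_1]
  · refine ⟨-C (a * b⁻¹), C b⁻¹, ?_⟩
    have h1 : (C b⁻¹ * C b : k[X]) = 1 := by rw [← C_mul, inv_mul_cancel₀ hb, C_1]
    have h2 : (C (a * b⁻¹) : k[X]) = C b⁻¹ * C a := by rw [← C_mul, mul_comm]
    rw [h2]
    linear_combination h1

end Squarefree

end Fermat.Agent.GAL.KLInputs

end
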