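/-
Cluster GAL, block 04 (KL modular inputs), owner helper30.

`KL₀` (the key lemma over a number field `K₀`, shape of helper248) from
* the abstract theorem `GoodRed.inj_main` of helper160 (here: the proposition `InjMain`),
* `GoodRed.GaussData` for the Gauss valuation ring `Vert.gaussVal` and a base coordinate `x`,
* `Descent.UnramOutsideVS` for `x` and `x⁻¹`.
-/
import Fermat.Agent.Lib.GoodRed.Defs
import Fermat.Agent.S18.Descent.Main
import Fermat.Agent.S18.Descent.Horizontal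
import Fermat.Agent.S18.Vert.GaussRes

set_option autoImplicit false
set_option linter.unusedSectionVars false

noncomputable section

namespace Fermat.Agent.GAL.KLInputs

open ModularCurve AlgebraicCurve Polynomial IntermediateField Fermat.Agent.GoodRed
  Fermat.Agent.S18.Descent Fermat.Agent.S18.Vert Fermat.Agent.S24.FF

/-- The statement of `GoodRed.inj_main` for fixed `O, K, E, F`. -/
def InjMain (O K E F : Type*) [CommRing O] [IsDomain O] [IsDiscreteValuationRing O]
    [Field K] [CharZero K] [Algebra O K] [IsFractionRing O K]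
    [Field E] [Algebra K E] [Algebra O E] [IsScalarTower O K E]
    [Field F] [Algebra E F] [FiniteDimensional E F] : Prop :=
  ∀ (ϖ : O) (_ : Irreducible ϖ) (x : E) (_ : Transcendental K x)
    (_ : IntermediateField.adjoin K {x} = ⊤) (𝒟 : ValuationSubring F)
    (_ : GaussData O ϖ 𝒟 x) (g₀ g₁ : O[X])
    (_ : Squarefree (g₀.map (IsLocalRing.residue O)))
    (_ : Squarefree (g₁.map (IsLocalRing.residue O)))
    (_ : UnramOutside K F x (g₀.map (algebraMap O K)))
    (_ : UnramOutside K F x⁻¹ (g₁.map (algebraMap O K)))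
    (m : ℕ) (_ : IsUnit (m : O)) (h : F) (_ : h ≠ 0) (_ : DivisibleDiv K E m h)
    (_ : ∃ z ∈ 𝒟, h = 1 + algebraMap E F (algebraMap O E ϖ) * z),
    ∃ s c : F, IsConst K E c ∧ h = c * s ^ m

/-- The conclusion of `Descent.KL₀` for an arbitrary field of constants `K`, a valuation subring
`A₀` of `K` and a subfield `F` of `K((q))`. -/
def KLGen {K : Type*} [Field K] (A₀ : ValuationSubring K)
    (F : IntermediateField K (LaurentSeries K)) (n : ℕ) : Prop :=
  ∀ (P Q : LaurentSeries A₀) (hP : coeffMap A₀.subtype P ∈ F) (hQ : coeffMap A₀.subtype Q ∈ F),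
    coeffMap (IsLocalRing.residue A₀) P = coeffMap (IsLocalRing.residue A₀) Q →
    coeffMap (IsLocalRing.residue A₀) Q ≠ 0 →
    (∀ w : Place K F, (n : ℤ) ∣ w.ord ((⟨coeffMap A₀.subtype P, hP⟩ : F) /
        ⟨coeffMap A₀.subtype Q, hQ⟩)) →
    ∃ s : F, s ≠ 0 ∧ IsAlgebraic K (s ^ n * ((⟨coeffMap A₀.subtype P, hP⟩ : F) /
          ⟨coeffMap A₀.subtype Q, hQ⟩))

variable {K : Type*} [Field K] [CharZero K] (A₀ : ValuationSubring K)
  [IsDiscreteValuationRing A₀] (F : IntermediateField K (LaurentSeries K))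

theorem klGen_of_base [IsFF1 K F] (hq : IsQuot A₀ F) {E : Type*} [Field E] [Algebra K E]
    [Algebra E F] [IsScalarTower K E F] [Algebra A₀ E] [IsScalarTower A₀ K E]
    [FiniteDimensional E F] (hinj : InjMain A₀ K E F) (x : E) (hx : Transcendental K x)
    (hgen : IntermediateField.adjoin K {x} = ⊤) (ϖ : A₀) (hϖ : Irreducible ϖ)
    (hG : GaussData A₀ ϖ (gaussVal A₀ F hq) x)
    (g₀ g₁ : A₀[X])
    (hg₀ : Squarefree (g₀.map (IsLocalRing.residue A₀)))
    (hg₁ : Squarefree (g₁.map (IsLocalRing.residue A₀)))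
    (hU₀ : UnramOutsideVS K (algebraMap E F x) (g₀.map (algebraMap A₀ K)))
    (hU₁ : UnramOutsideVS K (algebraMap E F x)⁻¹ (g₁.map (algebraMap A₀ K)))
    (n : ℕ) (hn : IsUnit (n : A₀)) : KLGen A₀ F n := by
  intro P Q hP hQ hres hres0 hdvd
  set h : F := (⟨coeffMap A₀.subtype P, hP⟩ : F) / ⟨coeffMap A₀.subtype Q, hQ⟩ with hh
  have hn0 : n ≠ 0 := by
    rintro rfl
    rw [Nat.cast_zero] at hn
    exact not_isUnit_zero hn
  have hQ0 : (⟨coeffMap A₀.subtype Q, hQ⟩ : F) ≠ 0 := fun h0 =>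
    inc_ne_zero_of_red_ne_zero (A := A₀) hres0 (congrArg Subtype.val h0)
  have hP0 : (⟨coeffMap A₀.subtype P, hP⟩ : F) ≠ 0 := fun h0 =>
    inc_ne_zero_of_red_ne_zero (A := A₀) (Q := P) (by rw [red, hres]; exact hres0)
      (congrArg Subtype.val h0)
  have hh0 : h ≠ 0 := div_ne_zero hP0 hQ0
  obtain ⟨g, hg⟩ := div_sub_one_mem hq hϖ P Q hP hQ hres hres0
  replace hg : h - 1 = algebraMap K F (ϖ : K) * (g : F) := hg
  have hπ : algebraMap E F (algebraMap A₀ E ϖ) = algebraMap K F (ϖ : K) := by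
    rw [IsScalarTower.algebraMap_apply A₀ K E, ← IsScalarTower.algebraMap_apply K E F]
    rfl
  obtain ⟨s, c, hc, hsc⟩ := hinj ϖ hϖ x hx hgen _ hG g₀ g₁ hg₀ hg₁ (unramOutside_of_VS x _ hU₀)
    (unramOutside_of_VS x⁻¹ _ (by rwa [map_inv₀])) n hn h hh0
    (divisibleDiv_of_VS n h (divisibleDivVS_of_places n h hh0 hdvd))
    ⟨g, g.2, by rw [hπ, ← hg]; ring⟩
  have hs0 : s ≠ 0 := by
    rintro rfl
    rw [zero_pow hn0, mul_zero] at hsc
    exact hh0 hsc
  refine ⟨s⁻¹, inv_ne_zero hs0, ?_⟩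
  have h1 : s⁻¹ ^ n * h = c := by
    rw [hsc, inv_pow]
    field_simp
  rw [h1]
  obtain ⟨p, hp, hp0⟩ := hc
  have hint : IsIntegral K c := by
    refine ⟨p, hp, ?_⟩
    rw [← hp0, IsScalarTower.algebraMap_eq K E F]
  exact hint.isAlgebraic

/-- `KLGen` is `KL₀`. -/
theorem KL₀_of_klGen (F₀ : IntermediateField ℚ (LaurentSeries ℚ))
    (A : ValuationSubring (AlgebraicClosure ℚ))
    (K₀ : IntermediateField ℚ (AlgebraicClosure ℚ)) (n : ℕ)
    (h : KLGen (restrict A K₀) (laurentBaseChange K₀ F₀) n) : KL₀ F₀ A K₀ n := h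

end Fermat.Agent.GAL.KLInputs

end
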